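/-
S45, project CARAYOL-K, block PTS, node NC, part (B) (helper211): a NON-CUSPIDAL point which lies on ONE MIDDLE component.

* `d_mem`, `st_mem`, `dt_unit`, `xs_mem`, `q_xs_mem` : the functions which are integral over `j(z)` belong to `R`;
* `zg_one_ram_t`  : `hbase` of `gen_chain` for `g = t` (from `NonCuspData.congz`);
* `isUnif_zg_t`   : `t(q^(a+m) z)/t(q^(a-m) z) - 1` is a uniformiser of the middle component;
* `princ_mid`     : `Princ R (V c₀)` at a point which lies on the middle component `V c₀` only.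
-/
import Mathlib
import Fermat.Agent.S45.Pts.Defs
import Fermat.Agent.S45.Pts.Chain
import Fermat.Agent.S45.Pts.GenChain
import Fermat.Agent.S45.Pts.Cusp.Asm
import Fermat.Agent.BAD.Model.Seidenberg
import Fermat.Agent.S36.BP.Build.ChartMap

set_option autoImplicit false

noncomputable section

namespace Fermat.Agent.S45.Pts.NC211

open Fermat.Agent.S18 Fermat.Agent.S36.BP Fermat.Agent.BAD.Model Fermat.Agent.S45.K
  Fermat.Agent.S45.Gen Fermat.Agent.S36.BP.Build Fermat.Agent.S45.Pts.CuspInc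

theorem isUnif_of_val_eq {F : Type*} [Field F] {W : ValuationSubring F} {a b : F} (h : IsUnif W a)
    (e : W.valuation b = W.valuation a) : IsUnif W b := by
  refine ⟨?_, ?_, ?_⟩
  · rw [mem_iff_val_le, e, ← mem_iff_val_le]; exact h.mem
  · rw [mem_iff_val_le, map_inv₀, e, ← map_inv₀, ← mem_iff_val_le]; exact h.inv_notMem
  · intro y hy
    obtain ⟨n, h1, h2⟩ := h.exists_zpow y hy
    refine ⟨n, ?_, ?_⟩
    · rw [mem_iff_val_le, map_div₀, map_zpow₀, e, ← map_zpow₀, ← map_div₀, ← mem_iff_val_le]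
      exact h1
    · rw [mem_iff_val_le, map_inv₀, map_div₀, map_zpow₀, e, ← map_zpow₀, ← map_div₀, ← map_inv₀,
        ← mem_iff_val_le]
      exact h2

variable {K₀ F₀ F₁ F₂ F : Type*} [Field K₀] [Field F₀] [Field F₁] [Field F₂] [Field F]
  [Algebra K₀ F₀] [Algebra K₀ F₁] [Algebra K₀ F₂] [Algebra K₀ F]
variable {A₀ : ValuationSubring K₀} {q k : ℕ} {al0 be0 : F₀ →ₐ[K₀] F₁} {al1 be1 : F₁ →ₐ[K₀] F₂}
  {V0 : ValuationSubring F₀} {V1 : Fin 2 → ValuationSubring F₁} {V2 : Fin 3 → ValuationSubring F₂}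
  {V : Fin (k + 1) → ValuationSubring F} {j x₀ t : F₀} {x₁ : F₁} {w1 : F₁ →ₐ[K₀] F₁}
  {cf : ℕ → ℕ → K₀} {κ : F₂} {e : Fin 4 → F₂}
  {d : ℕ → F₀ →ₐ[K₀] F} {st : ℕ → F₁ →ₐ[K₀] F} {w : ℕ → F₂ →ₐ[K₀] F}
  {Eα : Subfield F} {Nα Nβ N₀ : F →* F} {R : Subring F}

theorem dj_mem (G : Geo A₀ k al0 be0 al1 be1 V0 V1 V2 V j d st w) (hP : IsPt A₀ R)
    (hx : d 0 j ∈ R) {i : ℕ} (hi : i ≤ k) : d i j ∈ R :=
  Seidenberg.chart_le_of_mem_pt hP hx _ (G.jint i hi).1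

theorem d_mem (G : Geo A₀ k al0 be0 al1 be1 V0 V1 V2 V j d st w) (hP : IsPt A₀ R)
    (hx : d 0 j ∈ R) {i : ℕ} (hi : i ≤ k) {y : F₀} (hy : y ∈ chart A₀.toSubring j) : d i y ∈ R :=
  Seidenberg.chart_le_of_mem_pt hP (dj_mem G hP hx hi) _ (Build.map_mem_chart (d i) _ _ _ hy)

theorem st_mem (G : Geo A₀ k al0 be0 al1 be1 V0 V1 V2 V j d st w) (hP : IsPt A₀ R)
    (hx : d 0 j ∈ R) {i : ℕ} (hi : i < k) {y : F₁} (hy : y ∈ chart A₀.toSubring (al0 j)) :
    st i y ∈ R := by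
  have h := Build.map_mem_chart (st i) _ _ _ hy
  rw [G.st_al i hi] at h
  exact Seidenberg.chart_le_of_mem_pt hP (dj_mem G hP hx hi.le) _ h

theorem dt_unit (G : Geo A₀ k al0 be0 al1 be1 V0 V1 V2 V j d st w) (b0 : B0 A₀ q V0 j x₀ t F)
    (hP : IsPt A₀ R) (hx : d 0 j ∈ R) {i : ℕ} (hi : i ≤ k) : RUnit R (d i t) := by
  refine ⟨(map_ne_zero (d i)).2 (ne_zero_of_val_eq_one b0.t_unit), d_mem G hP hx hi b0.t_int, ?_⟩
  rw [← map_inv₀]
  exact d_mem G hP hx hi b0.t_int'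

theorem xs_ne (b1 : B1 A₀ q al0 be0 V1 j t x₁ w1 cf) (i : ℕ) : st i x₁ ≠ 0 :=
  (map_ne_zero (st i)).2 b1.x_ne

theorem xs_mem (G : Geo A₀ k al0 be0 al1 be1 V0 V1 V2 V j d st w)
    (b1 : B1 A₀ q al0 be0 V1 j t x₁ w1 cf) (hP : IsPt A₀ R) (hx : d 0 j ∈ R) {i : ℕ}
    (hi : i < k) : st i x₁ ∈ R := st_mem G hP hx hi b1.x_int

theorem q_xs_mem (G : Geo A₀ k al0 be0 al1 be1 V0 V1 V2 V j d st w)
    (b1 : B1 A₀ q al0 be0 V1 j t x₁ w1 cf) (hP : IsPt A₀ R) (hx : d 0 j ∈ R) {i : ℕ}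
    (hi : i < k) : (q : F) * (st i x₁)⁻¹ ∈ R := by
  have h := st_mem G hP hx hi b1.x_int'
  rwa [map_mul, map_inv₀, map_natCast] at h

/-- the window `k - c - 1` is of type `FV` on the component `c`. -/
theorem comap_w_mid (G : Geo A₀ k al0 be0 al1 be1 V0 V1 V2 V j d st w) (c : Fin (k + 1))
    (hc0 : 0 < (c : ℕ)) (hck : (c : ℕ) < k) :
    (V c).comap (w (k - c - 1) : F₂ →+* F) = V2 1 := by
  have h1 : k - (c : ℕ) - 1 + 1 < k := by omega
  have hc := G.comap_w c (k - c - 1) h1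
  have hw : wty k (c : ℕ) (k - c - 1) = 1 := by
    unfold wty
    rw [if_neg (by omega), if_pos (by omega)]
  rwa [hw] at hc

theorem val_e (b2 : B2 q al0 be0 al1 be1 V2 j t x₁ κ e) (W : ValuationSubring F₂) (i : Fin 4) :
    W.valuation (e i) = 1 := by
  rcases b2.e_pm i with h | h
  · rw [h, map_one]
  · rw [h, Valuation.map_neg, map_one]

theorem val_kap (b2 : B2 q al0 be0 al1 be1 V2 j t x₁ κ e) : (V2 1).valuation κ = 1 := by
  rcases b2.kap with h | h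
  · rw [h, map_mul, b2.nc.unit 0 1 (by decide), b2.nc.unit 2 1 (by decide), one_mul]
  · rw [h, map_one]

theorem ram_t (hq0 : (q : F₂) ≠ 0) (b2 : B2 q al0 be0 al1 be1 V2 j t x₁ κ e) :
    (V2 1).valuation (z2 al0 be0 al1 be1 t) ^ (q - 1) = (V2 1).valuation (q : F₂) := by
  have h : Cg (V2 1) (z2 al0 be0 al1 be1 t ^ (q - 1) / (q : F₂) * κ) (e 3) := b2.nc.congz
  have h1 := h.val_eq_one (val_e b2 _ 3)
  rw [map_mul, val_kap b2, mul_one, map_div₀, map_pow] at h1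
  exact (div_eq_one_iff_eq ((Valuation.ne_zero_iff _).2 hq0)).1 h1

theorem q_ne2 (hb : BaseHyp A₀ q) : (q : F₂) ≠ 0 := q_ne hb

/-- `hbase` of `gen_chain` for `g = t`. -/
theorem zg_one_ram_t (hb : BaseHyp A₀ q) (G : Geo A₀ k al0 be0 al1 be1 V0 V1 V2 V j d st w)
    (b2 : B2 q al0 be0 al1 be1 V2 j t x₁ κ e) (c : Fin (k + 1)) (hc0 : 0 < (c : ℕ))
    (hck : (c : ℕ) < k) :
    (V c).valuation (zg k d t c 1) ^ (q - 1) = (V c).valuation (q : F) := by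
  have hc := comap_w_mid G c hc0 hck
  have h := Fermat.Agent.S45.Tab.co_pow_eq (φ := (w (k - c - 1) : F₂ →+* F)) hc
    (ram_t (q_ne hb) b2)
  have e1 : (w (k - c - 1) : F₂ →+* F) (z2 al0 be0 al1 be1 t) = zg k d t c 1 := w_z2 G hc0 hck t
  have e2 : (w (k - c - 1) : F₂ →+* F) (q : F₂) = (q : F) := map_natCast _ q
  rwa [e1, e2] at h

/-- `V1 0 (al0 t) = 1`. -/
theorem val1_al_t (hk : 0 < k) (G : Geo A₀ k al0 be0 al1 be1 V0 V1 V2 V j d st w)
    (b0 : B0 A₀ q V0 j x₀ t F) : (V1 0).valuation (al0 t) = 1 := by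
  have h0 : sty k ((0 : Fin (k + 1)) : ℕ) 0 = 0 := by simp [sty, hk]
  have hc := G.comap_st 0 0 hk
  rw [h0] at hc
  refine (val_eq_one_of_comap (ι := (st 0 : F₁ →+* F)) hc (al0 t)).1 ?_
  have e : (st 0 : F₁ →+* F) (al0 t) = d 0 t := G.st_al 0 hk t
  rw [e]
  exact (val_eq_one_of_comap (ι := (d 0 : F₀ →+* F)) (G.comap_d 0 0 (Nat.zero_le k)) t).2 b0.t_unit

theorem val1_al_j' (hk : 0 < k) (G : Geo A₀ k al0 be0 al1 be1 V0 V1 V2 V j d st w)
    (b0 : B0 A₀ q V0 j x₀ t F) : (V1 0).valuation (al0 j) = 1 := by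
  have h0 : sty k ((0 : Fin (k + 1)) : ℕ) 0 = 0 := by simp [sty, hk]
  have hc := G.comap_st 0 0 hk
  rw [h0] at hc
  refine (val_eq_one_of_comap (ι := (st 0 : F₁ →+* F)) hc (al0 j)).1 ?_
  have e : (st 0 : F₁ →+* F) (al0 j) = d 0 j := G.st_al 0 hk j
  rw [e]
  exact val_dj G b0 0 (Nat.zero_le k)

/-- the chain for `g = t`. -/
theorem chain_t (hb : BaseHyp A₀ q) (G : Geo A₀ k al0 be0 al1 be1 V0 V1 V2 V j d st w)
    (b0 : B0 A₀ q V0 j x₀ t F) (b1 : B1 A₀ q al0 be0 V1 j t x₁ w1 cf)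
    (b2 : B2 q al0 be0 al1 be1 V2 j t x₁ κ e) (c : Fin (k + 1)) (hc0 : 0 < (c : ℕ))
    (hck : (c : ℕ) < k) :
    ∀ i, 1 ≤ i → i ≤ min (c : ℕ) (k - c) →
      (V c).valuation (zg k d t c i) ^ mult q i = (V c).valuation (q : F) ∧
      (i < min (c : ℕ) (k - c) →
        (V c).valuation (zg k d t c (i + 1) ^ q / zg k d t c i - 1) < 1) :=
  gen_chain hb G b0 b1 c hc0 hck t (val1_al_t (by omega) G b0) b1.kron_t
    (zg_one_ram_t hb G b2 c hc0 hck)

/-- `t(q^(a+m) z)/t(q^(a-m) z) - 1` is a uniformiser of the middle component. -/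
theorem isUnif_zg_t (hb : BaseHyp A₀ q) (G : Geo A₀ k al0 be0 al1 be1 V0 V1 V2 V j d st w)
    (b0 : B0 A₀ q V0 j x₀ t F) (b1 : B1 A₀ q al0 be0 V1 j t x₁ w1 cf)
    (b2 : B2 q al0 be0 al1 be1 V2 j t x₁ κ e) (T : Top A₀ q k V j d Eα Nα Nβ N₀)
    (c : Fin (k + 1)) (hc0 : 0 < (c : ℕ)) (hck : (c : ℕ) < k) :
    IsUnif (V c) (zg k d t c (min (c : ℕ) (k - c))) := by
  have hm : 1 ≤ min (c : ℕ) (k - c) := le_min hc0 (by omega)
  have h1 := (chain_t hb G b0 b1 b2 c hc0 hck _ hm le_rfl).1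
  have h2 := (gen_chain hb G b0 b1 c hc0 hck j (val1_al_j' (by omega) G b0) b1.kron_j
    (zg_one_ram G b2 c hc0 hck) _ hm le_rfl).1
  refine isUnif_of_val_eq (T.unif_mid c hc0 hck) ?_
  have hne : mult q (min (c : ℕ) (k - c)) ≠ 0 := by
    have := mult_pos hb.prime.two_le (min (c : ℕ) (k - c)); omega
  exact (pow_left_inj₀ zero_le zero_le hne).1 (h1.trans h2.symm)

/-- **Principality at a non-cuspidal point which lies on one middle component only.** -/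
theorem princ_mid (hb : BaseHyp A₀ q) (G : Geo A₀ k al0 be0 al1 be1 V0 V1 V2 V j d st w)
    (b0 : B0 A₀ q V0 j x₀ t F) (b1 : B1 A₀ q al0 be0 V1 j t x₁ w1 cf)
    (b2 : B2 q al0 be0 al1 be1 V2 j t x₁ κ e) (T : Top A₀ q k V j d Eα Nα Nβ N₀)
    (hR : PtBaseK A₀ q V R) (hx : d 0 j ∈ R) (hT : ∀ c, LeLoc R (V c) → Through R (V c))
    (c₀ : Fin (k + 1)) (hc0 : 0 < (c₀ : ℕ)) (hck : (c₀ : ℕ) < k) (ht : Through R (V c₀))
    (hA : ∀ c, c ≠ c₀ → Away R (V c)) : Princ R (V c₀) := by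
  have hP := hR.isPt
  have hqep := locQep hR hT
  have hq0 : (q : F) ≠ 0 := q_ne hb
  have hqR : (q : F) ∈ R := natCast_mem R q
  have hm : 1 ≤ min (c₀ : ℕ) (k - c₀) := le_min hc0 (by omega)
  have hg := chain_t hb G b0 b1 b2 c₀ hc0 hck
  have hvq : (V c₀).valuation (q : F) < 1 := val_q_lt G b0 c₀
  have hvq0 : (V c₀).valuation (q : F) ≠ 0 := (Valuation.ne_zero_iff _).2 hq0
  have hcw := comap_w_mid G c₀ hc0 hck
  have h1 : k - (c₀ : ℕ) - 1 + 1 < k := by omega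
  have h2 : k - (c₀ : ℕ) - 1 < k := by omega
  -- the two outer indicator functions of the window are units of `R`
  have hthr : ∀ {Y : F}, (V c₀).valuation Y = 1 → ∀ c, Through R (V c) → (V c).valuation Y = 1 := by
    intro Y hY c hc
    by_cases hcc : c = c₀
    · rw [hcc]; exact hY
    · exact absurd (hA c hcc) (not_away_of_through hc)
  have hY2 : RUnit R (w (k - c₀ - 1) (Y2 q al1 be1 x₁ 2)) := by
    have e2 : w (k - c₀ - 1) (Y2 q al1 be1 x₁ 2) = st (k - c₀ - 1) x₁ := G.w_al _ h1 x₁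
    have hv : (V c₀).valuation (w (k - c₀ - 1) (Y2 q al1 be1 x₁ 2)) = 1 :=
      (Fermat.Agent.S45.Tab.co_eq_one_iff (φ := (w (k - c₀ - 1) : F₂ →+* F)) hcw _).2
        (b2.nc.unit 2 1 (by decide))
    rw [e2] at hv ⊢
    refine runit_of hqep (xs_mem G b1 hP hx h2) (xs_ne b1 _) (k := 1) ?_ (hthr hv)
    rw [pow_one, div_eq_mul_inv]
    exact q_xs_mem G b1 hP hx h2
  have hY0 : RUnit R (w (k - c₀ - 1) (Y2 q al1 be1 x₁ 0)) := by
    have e0 : w (k - c₀ - 1) (Y2 q al1 be1 x₁ 0) = (q : F) * (st (k - c₀ - 1 + 1) x₁)⁻¹ := by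
      have : Y2 q al1 be1 x₁ 0 = (q : F₂) * (be1 x₁)⁻¹ := rfl
      rw [this, map_mul, map_inv₀, map_natCast, G.w_be _ h1]
    have hv : (V c₀).valuation (w (k - c₀ - 1) (Y2 q al1 be1 x₁ 0)) = 1 :=
      (Fermat.Agent.S45.Tab.co_eq_one_iff (φ := (w (k - c₀ - 1) : F₂ →+* F)) hcw _).2
        (b2.nc.unit 0 1 (by decide))
    rw [e0] at hv ⊢
    refine runit_of hqep (q_xs_mem G b1 hP hx h1) (mul_ne_zero hq0 (inv_ne_zero (xs_ne b1 _)))
      (k := 1) ?_ (hthr hv)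
    have e : (q : F) ^ 1 / ((q : F) * (st (k - c₀ - 1 + 1) x₁)⁻¹) = st (k - c₀ - 1 + 1) x₁ := by
      have := xs_ne (st := st) b1 (k - c₀ - 1 + 1)
      field_simp
    rw [e]
    exact xs_mem G b1 hP hx h1
  have hκ : RUnit R (w (k - c₀ - 1) κ) := by
    rcases b2.kap with h | h
    · rw [h, map_mul]; exact hY0.mul hY2
    · rw [h, map_one]; exact RUnit.one R
  have he3 : RUnit R (w (k - c₀ - 1) (e 3)) := by
    rcases b2.e_pm 3 with h | h
    · rw [h, map_one]; exact RUnit.one R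
    · rw [h, map_neg, map_one]; exact (RUnit.one R).neg
  have hfirst : (V c₀).valuation
      (zg k d t c₀ 1 ^ (q - 1) / (q : F) * w (k - c₀ - 1) κ - w (k - c₀ - 1) (e 3)) < 1 := by
    have h := (Fermat.Agent.S45.Tab.co_lt_one_iff (φ := (w (k - c₀ - 1) : F₂ →+* F)) hcw _).2
      b2.nc.congz
    have e1 : (w (k - c₀ - 1) : F₂ →+* F)
        (z2 al0 be0 al1 be1 t ^ (q - 1) / (q : F₂) * κ - e 3) =
        zg k d t c₀ 1 ^ (q - 1) / (q : F) * w (k - c₀ - 1) κ - w (k - c₀ - 1) (e 3) := by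
      rw [← w_z2 G hc0 hck t]
      simp only [map_sub, map_mul, map_div₀, map_pow, map_natCast, RingHom.coe_coe]
    rwa [e1] at h
  refine princ_chain hqep hP.add_rad ht hA
    (fun i => if i = 0 then (q : F) else zg k d t c₀ i) (by simp) (min (c₀ : ℕ) (k - c₀))
    ?_ ?_ ?_ ?_
  · intro i hi
    by_cases hi0 : i = 0
    · simp only [hi0, if_true]; exact hqR
    · simp only [hi0, if_false]
      have hi1 : i ≤ (c₀ : ℕ) := hi.trans (min_le_left _ _)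
      exact R.sub_mem ((dt_unit G b0 hP hx (by omega)).div (dt_unit G b0 hP hx (by omega))).mem
        R.one_mem
  · intro i hi
    by_cases hi0 : i = 0
    · simp only [hi0, if_true]; exact hq0
    · simp only [hi0, if_false]
      intro hz
      have h1 := (hg i (Nat.pos_of_ne_zero hi0) hi).1
      rw [hz, map_zero] at h1
      rcases Nat.eq_zero_or_pos (mult q i) with h2 | h2
      · rw [h2, pow_zero] at h1
        exact absurd h1.symm hvq.ne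
      · rw [zero_pow h2.ne'] at h1
        exact hvq0 h1.symm
  · intro i hi
    by_cases hi0 : i = 0
    · subst hi0
      have hq1 : q - 1 ≠ 0 := by have := hb.prime.two_le; omega
      refine ⟨q - 1, hq1, w (k - c₀ - 1) κ, w (k - c₀ - 1) (e 3), hκ, he3, ?_⟩
      simpa using hfirst
    · refine ⟨q, hb.prime.ne_zero, 1, 1, RUnit.one R, RUnit.one R, ?_⟩
      have h1 := (hg i (Nat.pos_of_ne_zero hi0) hi.le).2 hi
      simpa [hi0] using h1
  · have hm0 : min (c₀ : ℕ) (k - c₀) ≠ 0 := by omega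
    simp only [hm0, if_false]
    exact isUnif_zg_t hb G b0 b1 b2 T c₀ hc0 hck

end Fermat.Agent.S45.Pts.NC211

end
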